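import Fermat.Agent.H20.ES1KL.TowerDefs
import Fermat.Agent.H74.ES1KL.GB1
import Fermat.Agent.H29.ES1.KL2Interfaces
import Fermat.Agent.H69.ES1Finite
import Fermat.Agent.H29.ESB.Hecke

/-!
# P-ES1 / ES1-KL, milestone 2, row 1005 (GB-H), ROUTE T (helper20): the Hecke tower

`gbH_of_towerStep : TowerStepStatement → VFunStatement → GbHStatement`.

`E₀ = F₀(pM) ⊆ E₁ = E₀(v_g) ⊆ E₂ = E₁(V_p v_g) = heckeField (F1 M) p`:

* `heckeMid M p = E₁`, `heckeField_eq_adjoin_mid : heckeField (F1 M) p = E₁(V_p v_g)`;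
* step 1: the inputs of helper74's `GB1` pushed along `F₀(M) ≤ F₀(pM)`;
* step 2: their images under `V_p = qExpand ℚ p` (`V_p F₀(M) ≤ F₀(pM)`).
-/

set_option autoImplicit false
set_option linter.unusedSectionVars false

noncomputable section

open Polynomial ModularCurve

namespace Fermat.Agent.H20.ES1KL

open Fermat.Agent.H29.ES1 Fermat.Agent.H91.ES1KL Fermat.Agent.H74.ES1KL Fermat.Agent.H22.KL
open Fermat.Agent.H69.ES1

section Fields

variable (M : ℕ) [NeZero M] (p : ℕ) [NeZero p]

/-- `E₁ = F₀(pM)(v_g : g ∈ (ℤ/M)ˣ/±1)`. -/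
def heckeMid : IntermediateField ℚ (LaurentSeries ℚ) :=
  IntermediateField.adjoin ℚ
    ((modularFunctionFieldFull (p * M) : Set (LaurentSeries ℚ)) ∪ Set.range (vq M))

theorem full_le_heckeMid : modularFunctionFieldFull (p * M) ≤ heckeMid M p := fun _ hx =>
  IntermediateField.subset_adjoin ℚ _ (Or.inl hx)

theorem vq_mem_heckeMid (g : UnitsModSign M) : vq M g ∈ heckeMid M p :=
  IntermediateField.subset_adjoin ℚ _ (Or.inr ⟨g, rfl⟩)

theorem vq_mem_vGenSet (g : UnitsModSign M) : vq M g ∈ vGenSet M := by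
  induction g using QuotientGroup.induction_on with
  | H a => exact vGen_mem_vGenSet M a

/-- `V_p` maps `F₀(M)` into `F₀(pM)`. -/
theorem qExpand_mem_full_mul {y : LaurentSeries ℚ} (hy : y ∈ modularFunctionFieldFull M) :
    qExpand ℚ p y ∈ modularFunctionFieldFull (p * M) := by
  rw [modularFunctionFieldFull] at hy
  induction hy using IntermediateField.adjoin_induction with
  | mem x hx =>
    obtain ⟨d, hne, hdvd, rfl⟩ := hx
    haveI := hne
    rw [qExpand_qExpand]
    exact jqd_mem_full (p * M) (mul_dvd_mul_left p hdvd)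
  | algebraMap r =>
    rw [qExpand_algebraMap]
    exact IntermediateField.algebraMap_mem _ _
  | add x y _ _ hx hy => rw [map_add]; exact add_mem hx hy
  | inv x _ hx => rw [map_inv₀]; exact inv_mem hx
  | mul x y _ _ hx hy => rw [map_mul]; exact mul_mem hx hy

/-- The divisor expansions of `p M`, `p` prime, come from `M`. -/
theorem divisorExpansions_mul_prime (hp : p.Prime) {x : LaurentSeries ℚ}
    (hx : x ∈ divisorExpansions (p * M)) :
    x ∈ divisorExpansions M ∨ x ∈ ⇑(qExpand ℚ p) '' divisorExpansions M := by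
  obtain ⟨d, hne, hdvd, rfl⟩ := hx
  haveI := hne
  obtain ⟨d₁, d₂, h1, h2, hd⟩ := (Nat.dvd_mul).mp hdvd
  have hd₂ : d₂ ≠ 0 := by
    rintro rfl
    rw [mul_zero] at hd
    exact NeZero.ne d hd.symm
  haveI : NeZero d₂ := ⟨hd₂⟩
  rcases (Nat.dvd_prime hp).mp h1 with h | h
  · left
    refine ⟨d₂, inferInstance, h2, qExpand_congr ?_ jq⟩
    rw [← hd, h, one_mul]
  · right
    refine ⟨qExpand ℚ d₂ jq, ⟨d₂, inferInstance, h2, rfl⟩, ?_⟩
    rw [qExpand_qExpand]
    exact qExpand_congr (by rw [← hd, h]) jq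

/-- **The field identity**: `heckeField (F1 M) p = E₁(V_p v_g)`. -/
theorem heckeField_eq_adjoin_mid (hp : p.Prime) :
    heckeField (F1 M) p = IntermediateField.adjoin ℚ
      ((heckeMid M p : Set (LaurentSeries ℚ)) ∪ Set.range (fun g => qExpand ℚ p (vq M g))) := by
  rw [F1, heckeField_adjoin]
  apply le_antisymm
  · rw [IntermediateField.adjoin_le_iff]
    rintro x ((hx | hx) | ⟨y, (hy | hy), rfl⟩)
    · obtain ⟨d, hne, hdvd, rfl⟩ := hx
      haveI := hne
      exact IntermediateField.subset_adjoin ℚ _ (Or.inl (full_le_heckeMid M p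
        (jqd_mem_full (p * M) (hdvd.trans (dvd_mul_left M p)))))
    · obtain ⟨a, rfl⟩ := hx
      exact IntermediateField.subset_adjoin ℚ _
        (Or.inl (vq_mem_heckeMid M p (QuotientGroup.mk a)))
    · exact IntermediateField.subset_adjoin ℚ _ (Or.inl (full_le_heckeMid M p
        (qExpand_mem_full_mul M p (IntermediateField.subset_adjoin ℚ _ hy))))
    · obtain ⟨a, rfl⟩ := hy
      exact IntermediateField.subset_adjoin ℚ _ (Or.inr ⟨QuotientGroup.mk a, rfl⟩)
  · rw [IntermediateField.adjoin_le_iff]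
    rintro x (hx | ⟨g, rfl⟩)
    · have hmid : heckeMid M p ≤ IntermediateField.adjoin ℚ
          ((divisorExpansions M ∪ vGenSet M) ∪
            ⇑(qExpand ℚ p) '' (divisorExpansions M ∪ vGenSet M)) := by
        rw [heckeMid, IntermediateField.adjoin_le_iff]
        rintro z (hz | ⟨g, rfl⟩)
        · have hfull : modularFunctionFieldFull (p * M) ≤ IntermediateField.adjoin ℚ
              ((divisorExpansions M ∪ vGenSet M) ∪
                ⇑(qExpand ℚ p) '' (divisorExpansions M ∪ vGenSet M)) := by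
            rw [modularFunctionFieldFull, IntermediateField.adjoin_le_iff]
            intro w hw
            rcases divisorExpansions_mul_prime M p hp hw with h | ⟨y, hy, rfl⟩
            · exact IntermediateField.subset_adjoin ℚ _ (Or.inl (Or.inl h))
            · exact IntermediateField.subset_adjoin ℚ _ (Or.inr ⟨y, Or.inl hy, rfl⟩)
          exact hfull hz
        · exact IntermediateField.subset_adjoin ℚ _ (Or.inl (Or.inr (vq_mem_vGenSet M g)))
      exact hmid hx
    · exact IntermediateField.subset_adjoin ℚ _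
        (Or.inr ⟨vq M g, Or.inr (vq_mem_vGenSet M g), rfl⟩)

end Fields

section Inputs

variable (M : ℕ) [NeZero M] (p : ℕ) [NeZero p]
variable [Fintype (UnitsModSign M)] [DecidableEq (UnitsModSign M)]

theorem qExpand_mem_intSeries {y : LaurentSeries ℚ} (hy : y ∈ intSeries) :
    qExpand ℚ p y ∈ intSeries := by
  obtain ⟨w, rfl⟩ := hy
  exact ⟨qExpand ℤ p w, Fermat.Agent.H29.coeffMap_qExpand_comm (Int.castRingHom ℚ) p w⟩

theorem splitProd_qExpand :
    splitProd (fun g => qExpand ℚ p (vq M g)) = (splitProd (vq M)).map (qExpand ℚ p) := by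
  rw [splitProd, splitProd, Polynomial.map_prod]
  refine Finset.prod_congr rfl fun g _ => ?_
  rw [Polynomial.map_sub, Polynomial.map_X, Polynomial.map_C]

theorem discProd_qExpand :
    discProd (fun g => qExpand ℚ p (vq M g)) = qExpand ℚ p (discProd (vq M)) := by
  rw [discProd, discProd, map_prod]
  refine Finset.prod_congr rfl fun g _ => ?_
  rw [map_prod]
  refine Finset.prod_congr rfl fun g' _ => ?_
  rw [map_sub]

end Inputs

section Main

/-- **GB-H from the generic tower step.** -/
theorem gbH_of_towerStep (hT : TowerStepStatement) (hV : VFunStatement) : GbHStatement := by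
  classical
  intro M _ hM p _ hp hpM ℓ hℓ hℓM hℓp
  letI iFin : Fintype (UnitsModSign M) := Fintype.ofFinite _
  have hS : GenSepStatement := Fermat.Agent.H16.genSepStatement
  have hM3 : 3 ≤ M := by omega
  have hℓpM : ¬ ℓ ∣ p * M := by
    intro h
    rcases (Nat.Prime.dvd_mul hℓ).mp h with h | h
    · exact hℓp ((Nat.prime_dvd_prime_iff_eq hℓ hp).mp h)
    · exact hℓM h
  have hMpM : modularFunctionFieldFull M ≤ modularFunctionFieldFull (p * M) :=
    full_degeneracy_le (dvd_mul_left M p)
  have hGB₀ : ModelGoodBasisGen (modularFunctionFieldFull (p * M)) ℓ jq :=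
    (modelGoodBasis_iff (p * M) ℓ jq).mp
      (Fermat.Agent.H27.KLGB.modelGoodBasis_j (p * M) ℓ hℓ hℓpM)
  have hQE₀ : ModelQExpGen (modularFunctionFieldFull (p * M)) ℓ jq :=
    (modelQExp_iff (p * M) ℓ jq).mp (Fermat.Agent.H48.QExp.modelQExp_j (p * M) ℓ hℓ hℓpM)
  have hj : jq ∈ modularFunctionFieldFull (p * M) := jq_mem_full (p * M)
  -- step 1
  have h1 : ModelGoodBasisGen (heckeMid M p) ℓ jq :=
    hT (modularFunctionFieldFull (p * M)) (modularFunctionFieldFull (p * M)) (heckeMid M p)
      le_rfl hj (UnitsModSign M) (vq M) rfl (vq_injective M hS hM3)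
      (fun k => hMpM (coeff_split_mem_full M hV hM3 k))
      (fun k => coeff_split_mem_int M k)
      (hMpM (disc_mem_full M hV hM3))
      (disc_mem_int M)
      (exists_coeff_disc M hS hM3)
      ℓ hQE₀ hGB₀
  -- step 2
  have hunit : ∃ n : ℤ, (discProd (fun g => qExpand ℚ p (vq M g))).coeff n = 1 ∨
      (discProd (fun g => qExpand ℚ p (vq M g))).coeff n = -1 := by
    obtain ⟨n, hn⟩ := exists_coeff_disc M hS hM3
    refine ⟨(p : ℤ) * n, ?_⟩
    rw [discProd_qExpand, qExpand_coeff_mul]
    exact hn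
  exact hT (modularFunctionFieldFull (p * M)) (heckeMid M p) (heckeField (F1 M) p)
    (full_le_heckeMid M p) hj (UnitsModSign M) (fun g => qExpand ℚ p (vq M g))
    (heckeField_eq_adjoin_mid M p hp)
    ((qExpand_injective (R := ℚ) p).comp (vq_injective M hS hM3))
    (fun k => by
      rw [splitProd_qExpand, Polynomial.coeff_map]
      exact qExpand_mem_full_mul M p (coeff_split_mem_full M hV hM3 k))
    (fun k => by
      rw [splitProd_qExpand, Polynomial.coeff_map]
      exact qExpand_mem_intSeries p (coeff_split_mem_int M k))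
    (by
      rw [discProd_qExpand]
      exact qExpand_mem_full_mul M p (disc_mem_full M hV hM3))
    (by
      rw [discProd_qExpand]
      exact qExpand_mem_intSeries p (disc_mem_int M))
    hunit ℓ hQE₀ h1

end Main

end Fermat.Agent.H20.ES1KL
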