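import Fermat.Agent.H20.ES1KL.TowerStep
import Fermat.Agent.H20.ES1KL.HeckeTower
import Fermat.Agent.H99.ES1.VFun
import Fermat.Agent.H60.LatSum
import Fermat.Agent.H87.ES1.LatSumQExp

/-!
# P-ES1 / ES1-KL, milestone 2, row 1005 (helper20): `GbHStatement`, UNCONDITIONAL

`gbH : Fermat.Agent.H29.ES1.GbHStatement` : the Hecke field `heckeField (F1 M) p` of `X₁(M)` at a
prime `p ∤ M` has a good basis over `A₀[j]` at every prime `ℓ ∤ p M` (route T: two tower steps
over `F₀(pM)`, by the generic tower step `towerStep`).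
-/

set_option autoImplicit false

namespace Fermat.Agent.H20.ES1KL

open Fermat.Agent.H29.ES1

/-- **ES1-KL2-GBH** (row 1005), unconditional. -/
theorem gbH : GbHStatement :=
  gbH_of_towerStep towerStep
    (Fermat.Agent.H99.ES1.vFunStatement Fermat.Agent.H60.latSumStatement
      Fermat.Agent.H87.ES1.latSumQExp)

end Fermat.Agent.H20.ES1KL
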