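import Fermat.Agent.H74.ES1KL.GB1Q
import Fermat.Agent.H91.ES1KL.ModelGen

/-!
# P-ES1 / ES1-KL, milestone 2, row 1005 (GB-H), ROUTE T (helper20): the generic tower step

`TowerStepStatement` : the model form of helper74's tower step, generic in the level fields
`F₀₀ ≤ F₀ ≤ F₁ = F₀(v_i : i ∈ ι)`:

* the `v_i` are pairwise distinct series in `ℚ((q))`;
* `∏ (X - v_i)` has coefficients in `F₀₀` with integral `q`-expansions;
* the discriminant `∏_{i ≠ j} (v_i - v_j)` lies in `F₀₀`, has an integral `q`-expansion and a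
  coefficient `± 1`;
* the `q`-expansion principle holds for `F₀₀` and `F₀` has a good basis in the chart `j`.

Then `F₁` has a good basis in the chart `j`.
-/

set_option autoImplicit false

noncomputable section

open Polynomial ModularCurve

namespace Fermat.Agent.H20.ES1KL

open Fermat.Agent.H91.ES1KL

/-- The discriminant-like product of a finite family. -/
def discProd {ι : Type} [Fintype ι] [DecidableEq ι] (v : ι → LaurentSeries ℚ) :
    LaurentSeries ℚ :=
  ∏ i : ι, ∏ j ∈ (Finset.univ : Finset ι).erase i, (v i - v j)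

/-- The split polynomial of a finite family. -/
def splitProd {ι : Type} [Fintype ι] (v : ι → LaurentSeries ℚ) : (LaurentSeries ℚ)[X] :=
  ∏ i : ι, (X - C (v i))

/-- **The generic tower step** (model language). -/
def TowerStepStatement : Prop :=
  ∀ (F₀₀ F₀ F₁ : IntermediateField ℚ (LaurentSeries ℚ)), F₀₀ ≤ F₀ → jq ∈ F₀₀ →
    ∀ (ι : Type) [Fintype ι] [DecidableEq ι] (v : ι → LaurentSeries ℚ),
      F₁ = IntermediateField.adjoin ℚ ((F₀ : Set (LaurentSeries ℚ)) ∪ Set.range v) →
      Function.Injective v →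
      (∀ k : ℕ, (splitProd v).coeff k ∈ F₀₀) →
      (∀ k : ℕ, (splitProd v).coeff k ∈ Fermat.Agent.H74.ES1KL.intSeries) →
      discProd v ∈ F₀₀ →
      discProd v ∈ Fermat.Agent.H74.ES1KL.intSeries →
      (∃ n : ℤ, (discProd v).coeff n = 1 ∨ (discProd v).coeff n = -1) →
      ∀ ℓ : ℕ, ModelQExpGen F₀₀ ℓ jq → ModelGoodBasisGen F₀ ℓ jq → ModelGoodBasisGen F₁ ℓ jq

end Fermat.Agent.H20.ES1KL
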