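import Fermat.Agent.H20.ES1KL.TowerDefs
import Fermat.Agent.H74.ES1KL.GB1
import Fermat.Agent.H74.ES1KL.SimpleGBChart

/-!
# P-ES1 / ES1-KL, milestone 2, row 1005 (GB-H), ROUTE T (helper20): proof of the generic tower step

`towerStep : TowerStepStatement` - helper74's `modelGoodBasis_F1`, made generic in the level
fields `F₀₀ ≤ F₀ ≤ F₁ = F₀(v_i)`.  The coefficients of `∏ (X - v_i)` and the inverse of the
discriminant lie in the Gauss closure of `K₁ · F₀₀` by the `q`-expansion principle for `F₀₀`; they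
are pushed to `K₁ · F₀` (`algebraMap_mem_gaussClosure`), and the good basis of `K₁ · F₀` is
propagated to `K₁ · F₁` by `multiSplitGoodBasis`.
-/

set_option autoImplicit false
set_option linter.style.haveILetI false
set_option linter.unusedSectionVars false

noncomputable section

open Polynomial ModularCurve

namespace Fermat.Agent.H20.ES1KL

open Fermat.Agent.H29.ES1 Fermat.Agent.H91.ES1KL Fermat.Agent.H74.ES1KL Fermat.Agent.H22.KL

section Core

variable (K₁ : Type) [Field K₁] [Algebra ℚ K₁]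
variable {F₀ F₁ : IntermediateField ℚ (LaurentSeries ℚ)}

/-- The inclusion `K₁ · F₀ ⊆ K₁ · F₁`. -/
def inclGen (h : F₀ ≤ F₁) : ModelFieldGen K₁ F₀ →+* ModelFieldGen K₁ F₁ where
  toFun y := ⟨y.1, laurentBaseChange_mono' K₁ h y.2⟩
  map_one' := rfl
  map_mul' _ _ := rfl
  map_zero' := rfl
  map_add' _ _ := rfl

theorem inclGen_mk (h : F₀ ≤ F₁) (a : LaurentSeries K₁) (ha : a ∈ laurentBaseChange K₁ F₀) :
    inclGen K₁ h ⟨a, ha⟩ = ⟨a, laurentBaseChange_mono' K₁ h ha⟩ := rfl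

theorem coe_inclGen (h : F₀ ≤ F₁) (y : ModelFieldGen K₁ F₀) :
    ((inclGen K₁ h y : ModelFieldGen K₁ F₁) : LaurentSeries K₁) = (y : LaurentSeries K₁) := by
  rcases y with ⟨y, hy⟩
  rfl

variable {ι : Type} (v : ι → LaurentSeries ℚ)

/-- The generators as elements of `K₁ · F₁`. -/
def vE (hv : ∀ i, v i ∈ F₁) (i : ι) : ModelFieldGen K₁ F₁ :=
  ⟨coeffEmb K₁ (v i), coeffEmb_mem_laurentBaseChange K₁ (hv i)⟩

theorem coe_vE (hv : ∀ i, v i ∈ F₁) (i : ι) :
    ((vE K₁ v hv i : ModelFieldGen K₁ F₁) : LaurentSeries K₁) = coeffEmb K₁ (v i) := rfl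

/-- `K₁ · F₁` is generated by `K₁ · F₀` and the `v_i`. -/
theorem mem_subfield_of_gensGen (h01 : F₀ ≤ F₁) (hv : ∀ i, v i ∈ F₁)
    (hgen : F₁ ≤ IntermediateField.adjoin ℚ ((F₀ : Set (LaurentSeries ℚ)) ∪ Set.range v))
    (S : Subfield (ModelFieldGen K₁ F₁))
    (h0 : ∀ y : ModelFieldGen K₁ F₀, inclGen K₁ h01 y ∈ S)
    (h1 : ∀ i : ι, vE K₁ v hv i ∈ S) (y : ModelFieldGen K₁ F₁) : y ∈ S := by
  have hle : IntermediateField.adjoin ℚ ((F₀ : Set (LaurentSeries ℚ)) ∪ Set.range v) ≤ F₁ := by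
    rw [IntermediateField.adjoin_le_iff]
    rintro x (hx | ⟨i, rfl⟩)
    · exact h01 hx
    · exact hv i
  -- rational elements
  have key : ∀ f : LaurentSeries ℚ,
      f ∈ IntermediateField.adjoin ℚ ((F₀ : Set (LaurentSeries ℚ)) ∪ Set.range v) →
      ∀ h : coeffEmb K₁ f ∈ laurentBaseChange K₁ F₁,
        (⟨coeffEmb K₁ f, h⟩ : ModelFieldGen K₁ F₁) ∈ S := by
    intro f hf
    induction hf using IntermediateField.adjoin_induction with
    | mem x hx =>
      intro h
      rcases hx with hx | hx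
      · have := h0 ⟨coeffEmb K₁ x, coeffEmb_mem_laurentBaseChange K₁ hx⟩
        rw [inclGen_mk] at this
        exact this
      · obtain ⟨i, rfl⟩ := hx
        exact h1 i
    | algebraMap r =>
      intro h
      have hr0 : algebraMap ℚ (LaurentSeries ℚ) r ∈ F₀ := F₀.algebraMap_mem r
      have := h0 ⟨coeffEmb K₁ (algebraMap ℚ (LaurentSeries ℚ) r),
        coeffEmb_mem_laurentBaseChange K₁ hr0⟩
      rw [inclGen_mk] at this
      exact this
    | add x y hx' hy' hx hy =>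
      intro h
      have hxm : coeffEmb K₁ x ∈ laurentBaseChange K₁ F₁ :=
        coeffEmb_mem_laurentBaseChange K₁ (hle hx')
      have hym : coeffEmb K₁ y ∈ laurentBaseChange K₁ F₁ :=
        coeffEmb_mem_laurentBaseChange K₁ (hle hy')
      exact mk_mem_of_eq _ S (map_add (coeffEmb K₁) x y) (add_mem hxm hym)
        (mk_add_mem _ S hxm hym (hx hxm) (hy hym)) h
    | inv x hx' hx =>
      intro h
      have hxm : coeffEmb K₁ x ∈ laurentBaseChange K₁ F₁ :=
        coeffEmb_mem_laurentBaseChange K₁ (hle hx')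
      exact mk_mem_of_eq _ S (map_inv₀ (coeffEmb K₁) x) (inv_mem hxm)
        (mk_inv_mem _ S hxm (hx hxm)) h
    | mul x y hx' hy' hx hy =>
      intro h
      have hxm : coeffEmb K₁ x ∈ laurentBaseChange K₁ F₁ :=
        coeffEmb_mem_laurentBaseChange K₁ (hle hx')
      have hym : coeffEmb K₁ y ∈ laurentBaseChange K₁ F₁ :=
        coeffEmb_mem_laurentBaseChange K₁ (hle hy')
      exact mk_mem_of_eq _ S (map_mul (coeffEmb K₁) x y) (mul_mem hxm hym)
        (mk_mul_mem _ S hxm hym (hx hxm) (hy hym)) h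
  -- all elements
  have key2 : ∀ s : LaurentSeries K₁, s ∈ laurentBaseChange K₁ F₁ →
      ∀ h : s ∈ laurentBaseChange K₁ F₁, (⟨s, h⟩ : ModelFieldGen K₁ F₁) ∈ S := by
    intro s hs
    rw [laurentBaseChange] at hs
    induction hs using IntermediateField.adjoin_induction with
    | mem x hx =>
      intro h
      obtain ⟨f, hf, rfl⟩ := hx
      exact key f (hgen hf) h
    | algebraMap r =>
      intro h
      have hr0 : algebraMap K₁ (LaurentSeries K₁) r ∈ laurentBaseChange K₁ F₀ :=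
        (laurentBaseChange K₁ F₀).algebraMap_mem r
      have := h0 ⟨algebraMap K₁ (LaurentSeries K₁) r, hr0⟩
      rw [inclGen_mk] at this
      exact this
    | add x y hx' hy' hx hy =>
      intro h
      have hxm : x ∈ laurentBaseChange K₁ F₁ := by rw [laurentBaseChange]; exact hx'
      have hym : y ∈ laurentBaseChange K₁ F₁ := by rw [laurentBaseChange]; exact hy'
      exact mk_add_mem _ S hxm hym (hx hxm) (hy hym)
    | inv x hx' hx =>
      intro h
      have hxm : x ∈ laurentBaseChange K₁ F₁ := by rw [laurentBaseChange]; exact hx'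
      exact mk_inv_mem _ S hxm (hx hxm)
    | mul x y hx' hy' hx hy =>
      intro h
      have hxm : x ∈ laurentBaseChange K₁ F₁ := by rw [laurentBaseChange]; exact hx'
      have hym : y ∈ laurentBaseChange K₁ F₁ := by rw [laurentBaseChange]; exact hy'
      exact mk_mul_mem _ S hxm hym (hx hxm) (hy hym)
  rcases y with ⟨y, hy⟩
  exact key2 y hy hy

variable [Fintype ι] [DecidableEq ι]

/-- The coefficients of `∏ (X - v_i)` over `K₁` come from the rational ones. -/
theorem coe_coeff_splitGen (hv : ∀ i, v i ∈ F₁) (k : ℕ) :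
    (((∏ i : ι, (X - C (vE K₁ v hv i)) : (ModelFieldGen K₁ F₁)[X]).coeff k :
        ModelFieldGen K₁ F₁) : LaurentSeries K₁)
      = coeffEmb K₁ ((splitProd v).coeff k) := by
  have h1 : (∏ i : ι, (X - C (vE K₁ v hv i)) : (ModelFieldGen K₁ F₁)[X]).map
        ((laurentBaseChange K₁ F₁).val : ModelFieldGen K₁ F₁ →+* LaurentSeries K₁)
      = (splitProd v).map (coeffEmb K₁) := by
    rw [splitProd, Polynomial.map_prod, Polynomial.map_prod]
    refine Finset.prod_congr rfl fun g _ => ?_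
    rw [Polynomial.map_sub, Polynomial.map_X, Polynomial.map_C, Polynomial.map_sub,
      Polynomial.map_X, Polynomial.map_C]
    rfl
  have h2 := congrArg (fun p => p.coeff k) h1
  simp only [Polynomial.coeff_map] at h2
  exact h2

/-- The discriminant over `K₁` comes from the rational one. -/
theorem coe_discGen (hv : ∀ i, v i ∈ F₁) :
    (((∏ i : ι, ∏ j ∈ (Finset.univ : Finset ι).erase i,
        (vE K₁ v hv i - vE K₁ v hv j) : ModelFieldGen K₁ F₁) :
        ModelFieldGen K₁ F₁) : LaurentSeries K₁)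
      = coeffEmb K₁ (discProd v) := by
  have h1 : ∀ z : ModelFieldGen K₁ F₁, (z : LaurentSeries K₁)
      = ((laurentBaseChange K₁ F₁).val : ModelFieldGen K₁ F₁ →+* LaurentSeries K₁) z :=
    fun _ => rfl
  rw [discProd, h1, map_prod, map_prod]
  refine Finset.prod_congr rfl fun g _ => ?_
  rw [map_prod, map_prod]
  refine Finset.prod_congr rfl fun g' _ => ?_
  rw [map_sub, map_sub]
  rfl

end Core

section Main

/-- **The generic tower step.** -/
theorem towerStep : TowerStepStatement := by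
  classical
  intro F₀₀ F₀ F₁ h00 hj ι _ _ v hF₁ hvinj hcoef hcint hdmem hdint hdunit ℓ hQE hGB
  intro K₁ _ _ _ A₀ _ _ _ _ _ iA iT hu ϖ hϖ x hx
  have h01 : F₀ ≤ F₁ := by
    rw [hF₁]
    exact fun y hy => IntermediateField.subset_adjoin ℚ _ (Or.inl hy)
  have hv1 : ∀ i, v i ∈ F₁ := by
    rw [hF₁]
    exact fun i => IntermediateField.subset_adjoin ℚ _ (Or.inr ⟨i, rfl⟩)
  have hgen : F₁ ≤ IntermediateField.adjoin ℚ ((F₀ : Set (LaurentSeries ℚ)) ∪ Set.range v) :=
    le_of_eq hF₁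
  -- the algebra structures
  letI algA₀₀ : Algebra A₀ (ModelFieldGen K₁ F₀₀) :=
    ((algebraMap K₁ (ModelFieldGen K₁ F₀₀)).comp (algebraMap A₀ K₁)).toAlgebra
  haveI tow₀₀ : IsScalarTower A₀ K₁ (ModelFieldGen K₁ F₀₀) :=
    IsScalarTower.of_algebraMap_eq (fun _ => rfl)
  letI algA₀ : Algebra A₀ (ModelFieldGen K₁ F₀) :=
    ((algebraMap K₁ (ModelFieldGen K₁ F₀)).comp (algebraMap A₀ K₁)).toAlgebra
  haveI tow₀ : IsScalarTower A₀ K₁ (ModelFieldGen K₁ F₀) :=
    IsScalarTower.of_algebraMap_eq (fun _ => rfl)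
  letI alg00 : Algebra (ModelFieldGen K₁ F₀₀) (ModelFieldGen K₁ F₀) :=
    (inclGen K₁ h00).toAlgebra
  have halg00 : ∀ y : ModelFieldGen K₁ F₀₀,
      algebraMap (ModelFieldGen K₁ F₀₀) (ModelFieldGen K₁ F₀) y = inclGen K₁ h00 y :=
    fun _ => rfl
  letI algE : Algebra (ModelFieldGen K₁ F₀) (ModelFieldGen K₁ F₁) := (inclGen K₁ h01).toAlgebra
  have halg : ∀ y : ModelFieldGen K₁ F₀,
      algebraMap (ModelFieldGen K₁ F₀) (ModelFieldGen K₁ F₁) y = inclGen K₁ h01 y := fun _ => rfl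
  haveI tow00 : IsScalarTower A₀ (ModelFieldGen K₁ F₀₀) (ModelFieldGen K₁ F₀) :=
    IsScalarTower.of_algebraMap_eq (fun a => by
      apply Subtype.ext
      rw [IsScalarTower.algebraMap_apply A₀ K₁ (ModelFieldGen K₁ F₀), halg00, coe_inclGen,
        IsScalarTower.algebraMap_apply A₀ K₁ (ModelFieldGen K₁ F₀₀),
        coe_algebraMap_sub, coe_algebraMap_sub])
  haveI towE : IsScalarTower A₀ (ModelFieldGen K₁ F₀) (ModelFieldGen K₁ F₁) :=
    IsScalarTower.of_algebraMap_eq (fun a => by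
      apply Subtype.ext
      rw [IsScalarTower.algebraMap_apply A₀ K₁ (ModelFieldGen K₁ F₁), halg, coe_inclGen,
        IsScalarTower.algebraMap_apply A₀ K₁ (ModelFieldGen K₁ F₀),
        coe_algebraMap_sub, coe_algebraMap_sub])
  haveI hc0 : CharZero K₁ := algebraRat.charZero K₁
  haveI hc1 : CharZero (ModelFieldGen K₁ F₀) :=
    charZero_of_injective_algebraMap (algebraMap K₁ (ModelFieldGen K₁ F₀)).injective
  have hinj : Function.Injective (algebraMap A₀ (ModelFieldGen K₁ F₀)) := by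
    rw [IsScalarTower.algebraMap_eq A₀ K₁ (ModelFieldGen K₁ F₀)]
    exact (algebraMap K₁ (ModelFieldGen K₁ F₀)).injective.comp (IsFractionRing.injective A₀ K₁)
  -- the coordinate
  set x₀₀ : ModelFieldGen K₁ F₀₀ :=
    ⟨coeffEmb K₁ jq, coeffEmb_mem_laurentBaseChange K₁ hj⟩ with hx₀₀def
  have hx₀₀ : (x₀₀ : LaurentSeries K₁) = coeffEmb K₁ jq := rfl
  set x₀ : ModelFieldGen K₁ F₀ :=
    ⟨coeffEmb K₁ jq, coeffEmb_mem_laurentBaseChange K₁ (h00 hj)⟩ with hx₀def
  have hx₀ : (x₀ : LaurentSeries K₁) = coeffEmb K₁ jq := rfl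
  have hx₀x : algebraMap (ModelFieldGen K₁ F₀₀) (ModelFieldGen K₁ F₀) x₀₀ = x₀ := by
    apply Subtype.ext
    rw [halg00, coe_inclGen, hx₀₀]
  have hxx₀ : x = algebraMap (ModelFieldGen K₁ F₀) (ModelFieldGen K₁ F₁) x₀ := by
    apply Subtype.ext
    rw [halg, coe_inclGen, hx, hx₀]
  have hx₀₀tr : Transcendental A₀ x₀₀ := modelTranscendentalGen_jq F₀₀ K₁ A₀ x₀₀ hx₀₀
  have hx₀tr : Transcendental A₀ x₀ := modelTranscendentalGen_jq F₀ K₁ A₀ x₀ hx₀
  -- the inputs for the base fields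
  have hGB₀ : GoodBasis A₀ (ModelFieldGen K₁ F₀) ϖ x₀ := hGB K₁ A₀ hu ϖ hϖ x₀ hx₀
  have hQE₀ := hQE K₁ A₀ hu ϖ hϖ x₀₀ hx₀₀
  have hone : ∀ n : ℤ, ((1 : ModelFieldGen K₁ F₀₀) : LaurentSeries K₁).coeff n
      ∈ (algebraMap A₀ K₁).range := fun n => by
    rw [IntermediateField.coe_one]
    exact one_coeff_mem_range K₁ A₀ n
  have hpush : ∀ y : ModelFieldGen K₁ F₀₀,
      y ∈ gaussClosure A₀ (ModelFieldGen K₁ F₀₀) ϖ x₀₀ →
      algebraMap (ModelFieldGen K₁ F₀₀) (ModelFieldGen K₁ F₀) y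
        ∈ gaussClosure A₀ (ModelFieldGen K₁ F₀) ϖ x₀ := by
    intro y hy
    have := algebraMap_mem_gaussClosure (E := ModelFieldGen K₁ F₀) hx₀₀tr hy
    rwa [hx₀x] at this
  -- the polynomial
  set T : (ModelFieldGen K₁ F₁)[X] := ∏ i : ι, (X - C (vE K₁ v hv1 i)) with hT
  have hTm : T.Monic := monic_prod_of_monic _ _ (fun g _ => monic_X_sub_C _)
  set c₀₀ : ℕ → ModelFieldGen K₁ F₀₀ := fun k =>
    ⟨coeffEmb K₁ ((splitProd v).coeff k), coeffEmb_mem_laurentBaseChange K₁ (hcoef k)⟩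
    with hc₀₀def
  have hc₀₀coe : ∀ k, ((c₀₀ k : ModelFieldGen K₁ F₀₀) : LaurentSeries K₁)
      = coeffEmb K₁ ((splitProd v).coeff k) := fun _ => rfl
  have hcoefT : ∀ k : ℕ, T.coeff k
      = algebraMap (ModelFieldGen K₁ F₀) (ModelFieldGen K₁ F₁)
        (algebraMap (ModelFieldGen K₁ F₀₀) (ModelFieldGen K₁ F₀) (c₀₀ k)) := by
    intro k
    apply Subtype.ext
    rw [halg, coe_inclGen, halg00, coe_inclGen, hc₀₀coe, hT, coe_coeff_splitGen]
  have hlift : T ∈ Polynomial.lifts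
      (algebraMap (ModelFieldGen K₁ F₀) (ModelFieldGen K₁ F₁)) := by
    rw [Polynomial.lifts_iff_coeff_lifts]
    intro k
    exact ⟨_, (hcoefT k).symm⟩
  obtain ⟨Q, hQmap, -, hQm⟩ := Polynomial.lifts_and_natDegree_eq_and_monic hlift hTm
  have hQcoeff : ∀ k : ℕ, Q.coeff k
      = algebraMap (ModelFieldGen K₁ F₀₀) (ModelFieldGen K₁ F₀) (c₀₀ k) := by
    intro k
    apply (algebraMap (ModelFieldGen K₁ F₀) (ModelFieldGen K₁ F₁)).injective
    rw [← Polynomial.coeff_map, hQmap, hcoefT]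
  have hQc : ∀ k : ℕ, Q.coeff k ∈ gaussClosure A₀ (ModelFieldGen K₁ F₀) ϖ x₀ := by
    intro k
    have h1 := hQE₀ (c₀₀ k) 1 (fun n => by
        rw [hc₀₀coe]
        exact coeffEmb_coeff_mem_range K₁ A₀ (hcint k) n) hone
      ⟨0, 1, isUnit_one, by rw [map_one, IntermediateField.coe_one, HahnSeries.coeff_one,
        if_pos rfl]⟩
    rw [div_one] at h1
    rw [hQcoeff]
    exact hpush _ h1
  -- the discriminant
  set d₀₀ : ModelFieldGen K₁ F₀₀ :=
    ⟨coeffEmb K₁ (discProd v), coeffEmb_mem_laurentBaseChange K₁ hdmem⟩ with hd₀₀def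
  have hd₀₀coe : ((d₀₀ : ModelFieldGen K₁ F₀₀) : LaurentSeries K₁)
      = coeffEmb K₁ (discProd v) := rfl
  set d : ModelFieldGen K₁ F₀ :=
    algebraMap (ModelFieldGen K₁ F₀₀) (ModelFieldGen K₁ F₀) d₀₀ with hddef
  have hd : algebraMap (ModelFieldGen K₁ F₀) (ModelFieldGen K₁ F₁) d
      = ∏ i : ι, ∏ j ∈ (Finset.univ : Finset ι).erase i,
        (vE K₁ v hv1 i - vE K₁ v hv1 j) := by
    apply Subtype.ext
    rw [halg, coe_inclGen, hddef, halg00, coe_inclGen, hd₀₀coe, coe_discGen]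
  have hdinv : d⁻¹ ∈ gaussClosure A₀ (ModelFieldGen K₁ F₀) ϖ x₀ := by
    obtain ⟨n, hn⟩ := hdunit
    have hunit : ∃ (n : ℤ) (c : A₀), IsUnit c ∧
        algebraMap A₀ K₁ c = (d₀₀ : LaurentSeries K₁).coeff n := by
      rcases hn with hn | hn
      · refine ⟨n, 1, isUnit_one, ?_⟩
        rw [hd₀₀coe, coeffEmb_coeff, hn, map_one, map_one]
      · refine ⟨n, -1, isUnit_one.neg, ?_⟩
        rw [hd₀₀coe, coeffEmb_coeff, hn, map_neg, map_neg, map_one, map_one]
    have h1 := hQE₀ 1 d₀₀ hone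
      (fun n => by
        rw [hd₀₀coe]
        exact coeffEmb_coeff_mem_range K₁ A₀ hdint n) hunit
    rw [one_div] at h1
    have h2 := hpush _ h1
    rwa [map_inv₀] at h2
  -- generation
  have hadj : Algebra.adjoin (ModelFieldGen K₁ F₀)
      ((vE K₁ v hv1) '' ((Finset.univ : Finset ι) : Set ι)) = ⊤ := by
    have hroot : ∀ i : ι, IsIntegral (ModelFieldGen K₁ F₀) (vE K₁ v hv1 i) := by
      intro i
      refine ⟨Q, hQm, ?_⟩
      rw [← Polynomial.eval_map, hQmap, hT, Polynomial.eval_prod]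
      exact Finset.prod_eq_zero (Finset.mem_univ i)
        (by rw [Polynomial.eval_sub, Polynomial.eval_X, Polynomial.eval_C, sub_self])
    have hsub : (IntermediateField.adjoin (ModelFieldGen K₁ F₀)
        ((vE K₁ v hv1) '' ((Finset.univ : Finset ι) : Set ι))).toSubalgebra
        = Algebra.adjoin (ModelFieldGen K₁ F₀)
          ((vE K₁ v hv1) '' ((Finset.univ : Finset ι) : Set ι)) := by
      refine IntermediateField.adjoin_toSubalgebra_of_isAlgebraic ?_
      rintro _ ⟨i, -, rfl⟩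
      exact (hroot i).isAlgebraic
    rw [eq_top_iff]
    intro y _
    rw [← hsub]
    refine mem_subfield_of_gensGen K₁ v h01 hv1 hgen
      (IntermediateField.adjoin (ModelFieldGen K₁ F₀)
        ((vE K₁ v hv1) '' ((Finset.univ : Finset ι) : Set ι))).toSubfield ?_ ?_ y
    · intro z
      rw [← halg]
      exact IntermediateField.algebraMap_mem _ z
    · intro i
      exact IntermediateField.subset_adjoin _ _ ⟨i, Finset.mem_coe.mpr (Finset.mem_univ i), rfl⟩
  -- injectivity of the generators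
  have hvinj' : Set.InjOn (vE K₁ v hv1) ((Finset.univ : Finset ι) : Set ι) := by
    intro i _ i' _ h
    apply hvinj
    apply (coeffEmb K₁).injective
    exact congrArg Subtype.val h
  rw [hxx₀]
  exact multiSplitGoodBasis A₀ (ModelFieldGen K₁ F₀) (ModelFieldGen K₁ F₁) hinj ϖ hϖ x₀ hx₀tr
    Finset.univ (vE K₁ v hv1) hvinj' Q hQm hQc (by rw [hQmap]) hadj d hd hdinv hGB₀

end Main

end Fermat.Agent.H20.ES1KL
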